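import Fermat.Agent.LT.A2.H637.OrbChar

/-!
# Row LT, tower A2, leaf A2.03.1.8 `WX467.OrbC` (helper637)

OFF-MAIN.  `orbC637 : OrbC637`, where `OrbC637` is `WX467.OrbC` WITH the hypothesis
`∀ u : InfinitePlace K, u.IsComplex` (in scope in the top `WX467.weilEx_of_leaves467`), and the
patched top `weilEx_of_leaves637` (VERBATIM conclusion `WL.WeilExC`).

## Why the hypothesis is needed

`WX467.OrbC` is stated for every number field.  `CpxAt` does not force the place to be complex
(at a real place where the form splits the certificate is satisfiable: hyperbolic plane, Gaussian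
of weight `0`), the local family is even in `ξ_u`, and if `χT(-1_u) = -1` the substitution
`m ↦ (-1_u) m` in the orbital integral gives `W = -W`: `ne_zero` fails.  Over a totally complex
field `χT = 1` on the support of `m ↦ F 1 1 (m⁻¹ (1, 0))` (`chi_eq_one637`).

## Proof

* `orb_dom`: `orb_dom637` (unfolding over `DT`; `OrbDom.lean`);
* `ne_zero` at `(g, m_g) = (1, 1)`: on `T¹(𝔸_K)` the integrand is `F 1 1 (m⁻¹ (1, 0)) χT(m)`;
  `F 1 1 ≥ 0` (`FinAt.pos`, the Gaussian), `F 1 1 (1, 0) > 0`; if `F 1 1 (m⁻¹ (1, 0)) ≠ 0` all the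
  finite components of `m` are in the level groups (`FinAt.orb`; almost all factors of the
  product are `1`), hence `χT m = 1`; the integrand is continuous, integrable (`orb_dom`),
  `≥ 0` and `> 0` at `1`: `IsMeasured.open_pos`.

No sorry, nothing assumed.
-/

set_option autoImplicit false
set_option linter.style.haveILetI false

open IsDedekindDomain NumberField AutomorphicForm MeasureTheory
open scoped MatrixGroups Topology ENNReal

noncomputable section

namespace Fermat.Agent.LT.A2.H637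

open Fermat.Agent.LT.H130 Fermat.Agent.LT.H556 Fermat.Agent.LT.A2
open Fermat.Agent.LT.A2.WX467

variable {K : Type} [Field K] [NumberField K]

/-! ## Nonnegative real numbers in `ℂ` -/

/-- `z` is a nonnegative real number. -/
def IsNN637 (z : ℂ) : Prop := 0 ≤ z.re ∧ z.im = 0

theorem isNN_one637 : IsNN637 1 := ⟨by simp, by simp⟩

theorem isNN_mul637 {z w : ℂ} (hz : IsNN637 z) (hw : IsNN637 w) : IsNN637 (z * w) := by
  constructor
  · rw [Complex.mul_re, hz.2, zero_mul, sub_zero]
    exact mul_nonneg hz.1 hw.1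
  · rw [Complex.mul_im, hz.2, hw.2, mul_zero, zero_mul, add_zero]

theorem isNN_eq637 {z : ℂ} (hz : IsNN637 z) : z = ((z.re : ℝ) : ℂ) :=
  Complex.ext (Complex.ofReal_re _).symm (by rw [hz.2, Complex.ofReal_im])

/-! ## The initial vector `F 1 1` -/

theorem F11_eq637 (L : WData K) (ξ : A0.Adl K × A0.Adl K) :
    L.F 1 1 ξ = (∏ u : InfinitePlace K, L.Finf u 1 1 (infVec u ξ)) *
      ∏ᶠ v : HeightOneSpectrum (𝓞 K), L.Ffin v 1 1 (finVec v ξ) := by
  unfold WData.F prodFn
  simp only [infMat_one637, finComp_one637]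

theorem exists_roots637 (s p : ℂ) : ∃ ω₁ ω₂ : ℂ, ω₁ + ω₂ = s ∧ ω₁ * ω₂ = p := by
  obtain ⟨d, hd⟩ := IsAlgClosed.exists_eq_mul_self (s ^ 2 - 4 * p)
  refine ⟨(s + d) / 2, (s - d) / 2, by ring, ?_⟩
  field_simp
  linear_combination hd

theorem Finf_pos637 (L : WData K) (hg : L.IsGood) (u : InfinitePlace K)
    (ξ : u.Completion × u.Completion) : IsNN637 (L.Finf u 1 1 ξ) ∧ L.Finf u 1 1 ξ ≠ 0 := by
  obtain ⟨c, -, -, hgauss⟩ := (hg.cpx u).gauss
  obtain ⟨ω₁, ω₂, h1, h2⟩ := exists_roots637 (u.embedding L.t) (u.embedding L.n)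
  rw [hgauss ω₁ ω₂ h1 h2 ξ, gaussL, ← Complex.ofReal_neg, ← Complex.ofReal_exp]
  exact ⟨⟨by rw [Complex.ofReal_re]; exact (Real.exp_pos _).le, Complex.ofReal_im _⟩,
    Complex.ofReal_ne_zero.mpr (Real.exp_pos _).ne'⟩

theorem F11_nn637 (L : WData K) (hg : L.IsGood) (ξ : A0.Adl K × A0.Adl K) :
    IsNN637 (L.F 1 1 ξ) := by
  rw [F11_eq637]
  refine isNN_mul637 ?_ ?_
  · exact Finset.prod_induction _ IsNN637 (fun _ _ => isNN_mul637) isNN_one637
      (fun u _ => (Finf_pos637 L hg u _).1)
  · exact finprod_induction IsNN637 isNN_one637 (fun _ _ => isNN_mul637)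
      (fun v => (hg.fin v).pos.1 _)

theorem F11_e1_ne637 (L : WData K) (hg : L.IsGood) :
    L.F 1 1 ((1 : A0.Adl K), (0 : A0.Adl K)) ≠ 0 := by
  rw [F11_eq637]
  refine mul_ne_zero ?_ ?_
  · exact Finset.prod_ne_zero_iff.mpr fun u _ => (Finf_pos637 L hg u _).2
  · refine finprod_induction (fun z : ℂ => z ≠ 0) one_ne_zero (fun _ _ => mul_ne_zero)
      (fun v => ?_)
    exact (hg.fin v).pos.2

/-- If `F 1 1 ξ ≠ 0` every local factor at a finite place is `≠ 0` (almost all factors of the
product are `1`). -/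
theorem F11_factor_ne637 (L : WData K) (hg : L.IsGood) (ξ : A0.Adl K × A0.Adl K)
    (h : L.F 1 1 ξ ≠ 0) (v : HeightOneSpectrum (𝓞 K)) : L.Ffin v 1 1 (finVec v ξ) ≠ 0 := by
  intro hv
  apply h
  rw [F11_eq637]
  have hfin : (Function.mulSupport fun v : HeightOneSpectrum (𝓞 K) =>
      L.Ffin v 1 1 (finVec v ξ)).Finite := by
    have h1 : {v : HeightOneSpectrum (𝓞 K) | v.asIdeal ∣ L.π.level}.Finite :=
      Ideal.finite_factors L.π.level_ne_bot
    have h2 : {v : HeightOneSpectrum (𝓞 K) | ¬ ξ.1.2 v ∈ v.adicCompletionIntegers K}.Finite :=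
      Filter.eventually_cofinite.mp (RestrictedProduct.eventually _ _ ξ.1.2)
    have h3 : {v : HeightOneSpectrum (𝓞 K) | ¬ ξ.2.2 v ∈ v.adicCompletionIntegers K}.Finite :=
      Filter.eventually_cofinite.mp (RestrictedProduct.eventually _ _ ξ.2.2)
    refine ((h1.union h2).union h3).subset fun w hw => ?_
    by_contra hcon
    simp only [Set.mem_union, Set.mem_ofPred_eq, not_or, not_not] at hcon
    obtain ⟨⟨hw1, hw2⟩, hw3⟩ := hcon
    apply hw
    show L.Ffin w 1 1 (finVec w ξ) = 1
    rw [(hg.good w hw1).std, stdFn, if_pos ⟨hw2, hw3⟩]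
  rw [finprod_eq_prod _ hfin]
  have hmem : v ∈ hfin.toFinset := by
    rw [Set.Finite.mem_toFinset, Function.mem_mulSupport, hv]
    exact zero_ne_one
  rw [Finset.prod_eq_zero hmem hv, mul_zero]

/-- The vector `m⁻¹ (1, 0)` at the finite place `v`. -/
theorem finVec_actV637 {m : A0.G K} (hdet : Matrix.GeneralLinearGroup.det m = 1)
    (v : HeightOneSpectrum (𝓞 K)) :
    actL (A0.finComp v m)⁻¹ (1, 0) = finVec v (actV m⁻¹ ((1 : A0.Adl K), (0 : A0.Adl K))) := by
  have hd : (m : Matrix (Fin 2) (Fin 2) (A0.Adl K)).det = 1 := by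
    have := congrArg (fun u : (A0.Adl K)ˣ => (u : A0.Adl K)) hdet
    simpa using this
  have hdv : (A0.finComp v m).det = 1 := by
    rw [finComp_eq_map637, ← RingHom.mapMatrix_apply, ← RingHom.map_det, hd, map_one]
  rw [Matrix.inv_def, hdv, Ring.inverse_one, one_smul, Matrix.adjugate_fin_two]
  simp only [actL, actV, finVec, val_inv_of_det_one637 hdet]
  refine Prod.ext ?_ ?_
  · show A0.finComp v m 1 1 * 1 + -(A0.finComp v m 0 1) * 0
      = ((m : Matrix (Fin 2) (Fin 2) (A0.Adl K)) 1 1).2 v * 1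
        + (-(m : Matrix (Fin 2) (Fin 2) (A0.Adl K)) 0 1).2 v * 0
    rw [mul_zero, mul_zero]
    rfl
  · show -(A0.finComp v m 1 0) * 1 + A0.finComp v m 0 0 * 0
      = (-(m : Matrix (Fin 2) (Fin 2) (A0.Adl K)) 1 0).2 v * 1
        + ((m : Matrix (Fin 2) (Fin 2) (A0.Adl K)) 0 0).2 v * 0
    rw [mul_zero, mul_zero]
    rfl

/-- On the support of `m ↦ F 1 1 (m⁻¹ (1, 0))` the finite components are in the level groups. -/
theorem finComp_mem_Tlev637 (L : WData K) (hg : L.IsGood) {m : A0.G K}
    (hm : InTorus1 L.t L.n m)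
    (h : L.F 1 1 (actV m⁻¹ ((1 : A0.Adl K), (0 : A0.Adl K))) ≠ 0)
    (v : HeightOneSpectrum (𝓞 K)) : A0.finComp v m ∈ L.Tlev v := by
  have hv := F11_factor_ne637 L hg _ h v
  obtain ⟨⟨a, b, hab⟩, hdet⟩ := hm
  have hd : (m : Matrix (Fin 2) (Fin 2) (A0.Adl K)).det = 1 := by
    have := congrArg (fun u : (A0.Adl K)ˣ => (u : A0.Adl K)) hdet
    simpa using this
  refine (hg.fin v).orb (A0.finComp v m) ⟨a.2 v, b.2 v, ?_⟩ ?_ ?_
  · rw [finComp_eq_map637, hab, map_torMat637]
    rfl
  · rw [finComp_eq_map637, ← RingHom.mapMatrix_apply, ← RingHom.map_det, hd, map_one]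
  · rw [finVec_actV637 hdet v]
    exact hv

/-! ## The orbital integral at `(1, 1)` -/

theorem continuous_orbit637 :
    Continuous fun m : A0.G K => actV m⁻¹ ((1 : A0.Adl K), (0 : A0.Adl K)) := by
  have hval : Continuous fun m : A0.G K =>
      ((m⁻¹ : A0.G K) : Matrix (Fin 2) (Fin 2) (A0.Adl K)) :=
    Units.continuous_val.comp continuous_inv
  have hent : ∀ i j : Fin 2, Continuous fun m : A0.G K =>
      ((m⁻¹ : A0.G K) : Matrix (Fin 2) (Fin 2) (A0.Adl K)) i j := fun i j =>
    (continuous_apply j).comp ((continuous_apply i).comp hval)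
  unfold actV
  exact ((((hent 0 0).mul continuous_const).add ((hent 0 1).mul continuous_const))).prodMk
    (((hent 1 0).mul continuous_const).add ((hent 1 1).mul continuous_const))

theorem actV_one637 :
    actV (1 : A0.G K)⁻¹ ((1 : A0.Adl K), (0 : A0.Adl K)) = ((1 : A0.Adl K), (0 : A0.Adl K)) := by
  simp [actV]

/-- **`ne_zero`** over a totally complex field. -/
theorem ne_zero637 (L : WData K) (hcpx : ∀ u : InfinitePlace K, u.IsComplex) (hg : L.IsGood)
    (htor1 : ∀ m' : A0.G K, InTorus1 L.t L.n m' →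
      ∀ (g m : A0.G K) (ξ : A0.Adl K × A0.Adl K), Adm L.t L.n g m →
        L.F g (m' * m) ξ = L.F g m (actV m'⁻¹ ξ))
    (hreg : L.toKData.IsRegular) :
    ∃ g mg : A0.G K, Adm L.toKData.t L.toKData.n g mg ∧
      L.toKData.intT {m | InTorus1 L.toKData.t L.toKData.n m}
        (fun m => L.toKData.F g (m * mg) (1, 0) * L.toKData.χT (m * mg)) ≠ 0 := by
  letI : MeasurableSpace (A0.G K) := borel (A0.G K)
  haveI : BorelSpace (A0.G K) := ⟨rfl⟩
  have hM : L.toKData.IsMeasured := hg.measured
  have adm11 : Adm L.t L.n (1 : A0.G K) 1 := ⟨inTorus_one637 _ _, rfl⟩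
  refine ⟨1, 1, adm11, ?_⟩
  have hΦc : Continuous (L.F 1 1) := hreg.cont 1 1 adm11
  set φ : A0.G K → ℝ := fun m => (L.F 1 1 (actV m⁻¹ ((1 : A0.Adl K), (0 : A0.Adl K)))).re
    with hφ
  have hφc : Continuous φ := Complex.continuous_re.comp (hΦc.comp continuous_orbit637)
  have hφ0 : ∀ m, 0 ≤ φ m := fun m => (F11_nn637 L hg _).1
  have hF : ∀ m : A0.G K, InTorus1 L.t L.n m →
      L.F 1 (m * 1) (1, 0) = ((φ m : ℝ) : ℂ) := by
    intro m hm
    rw [htor1 m hm 1 1 (1, 0) adm11]
    exact isNN_eq637 (F11_nn637 L hg _)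
  have hkey : ∀ m : A0.G K, InTorus1 L.t L.n m →
      L.F 1 (m * 1) (1, 0) * L.χT (m * 1) = ((φ m : ℝ) : ℂ) := by
    intro m hm
    by_cases h0 : L.F 1 1 (actV m⁻¹ ((1 : A0.Adl K), (0 : A0.Adl K))) = 0
    · have hz : φ m = 0 := by rw [hφ]; simp only; rw [h0, Complex.zero_re]
      rw [hF m hm, hz, Complex.ofReal_zero, zero_mul]
    · have hχ1 : L.χT m = 1 :=
        chi_eq_one637 hg.torus hcpx L.Tlev
          (fun v κ h1 h2 => (hg.fin v).chi_triv κ h1 h2) hm.1
          (fun v => finComp_mem_Tlev637 L hg hm h0 v)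
      rw [hF m hm, mul_one, hχ1, mul_one]
  obtain ⟨h, hint, hbound⟩ :=
    orb_dom637 L.toKData hM hreg htor1 {((1 : A0.G K), (1 : A0.G K))} isCompact_singleton
  have hae : ∀ᵐ m ∂L.μT, InTorus1 L.t L.n m := by
    rw [ae_iff]
    exact hM.carried
  have hres : L.μT.restrict {m | InTorus1 L.t L.n m} = L.μT :=
    Measure.restrict_eq_self_of_ae_mem hae
  have hint' : Integrable h L.μT := by
    have h1 : Integrable h (L.μT.restrict {m | InTorus1 L.t L.n m}) := hint
    rwa [hres] at h1
  have hφint : Integrable φ L.μT := by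
    refine hint'.mono' hφc.aestronglyMeasurable ?_
    filter_upwards [hae] with m hm
    have h1 := hbound ((1 : A0.G K), (1 : A0.G K)) rfl adm11 m hm
    have h2 : ‖L.F 1 (m * 1) (1, 0)‖ = ‖φ m‖ := by
      rw [hF m hm, Complex.norm_real]
    rw [← h2]
    exact h1
  have hpos : 0 < ∫ m, φ m ∂L.μT := by
    rw [integral_pos_iff_support_of_nonneg_ae (Filter.Eventually.of_forall hφ0) hφint]
    have hopen : IsOpen (Function.support φ) := hφc.isOpen_support
    refine hM.open_pos _ hopen ⟨1, ?_, inTorus1_one637 _ _⟩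
    rw [Function.mem_support]
    intro hz
    have hnn := F11_nn637 L hg ((1 : A0.Adl K), (0 : A0.Adl K))
    apply F11_e1_ne637 L hg
    rw [isNN_eq637 hnn]
    have hz' : (L.F 1 1 ((1 : A0.Adl K), (0 : A0.Adl K))).re = 0 := by
      have := hz
      rw [hφ] at this
      simp only at this
      rwa [actV_one637] at this
    rw [hz', Complex.ofReal_zero]
  have heq : ∫ m, L.F 1 (m * 1) (1, 0) * L.χT (m * 1) ∂L.μT
      = ((∫ m, φ m ∂L.μT : ℝ) : ℂ) := by
    have h1 : ∫ m, L.F 1 (m * 1) (1, 0) * L.χT (m * 1) ∂L.μT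
        = ∫ m, ((φ m : ℝ) : ℂ) ∂L.μT := by
      refine integral_congr_ae ?_
      filter_upwards [hae] with m hm
      exact hkey m hm
    rw [h1]
    exact integral_ofReal
  show (∫ m in {m | InTorus1 L.t L.n m}, L.F 1 (m * 1) (1, 0) * L.χT (m * 1) ∂L.μT) ≠ 0
  rw [hres, heq]
  exact Complex.ofReal_ne_zero.mpr hpos.ne'

/-! ## The leaf -/

/-- **A2.03.1.8 ORB**, with the hypothesis that the base field is totally complex. -/
def OrbC637 : Prop :=
  ∀ (K : Type) [Field K] [NumberField K] (L : WData K),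
    (∀ u : InfinitePlace K, u.IsComplex) →
    T1.T1Out K → L.IsGood → BorelOut L.toKData L.η → L.toKData.IsRegular →
    DecayOut L.toKData → OrbOut L.toKData

/-- **A2.03.1.8 ORB (PROVED).** -/
theorem orbC637 : OrbC637 := fun _ _ _ L hcpx _ hg hB hreg _ =>
  { orb_dom := orb_dom637 L.toKData hg.measured hreg hB.tor1
    ne_zero := ne_zero637 L hcpx hg hB.tor1 hreg }

/-- `WX467.OrbC` implies `OrbC637` (the frozen leaf is stronger). -/
theorem orbC637_of_orbC (h : WX467.OrbC) : OrbC637 :=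
  fun K _ _ L _ hT hg hB hreg hdec => h K L hT hg hB hreg hdec

/-- **The top of the station `WL.WeilExC`**, with `OrbC637` in place of `WX467.OrbC`
(the proof of `WX467.weilEx_of_leaves467`, VERBATIM except for the use of `hcpx`). -/
theorem weilEx_of_leaves637
    (hT1 : ∀ (K : Type) [Field K] [NumberField K], T1.T1Out K) (hP : Poisson2C)
    (hData : DataC) (hBorel : BorelC) (hReg : RegC) (hWeyl : WeylC) (hRat : RatC)
    (hRInv : RightInvC) (hStd : StdLocC) (hOrb : OrbC637) : WL.WeilExC := by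
  intro K _ _ t n χT hχ hcpx 𝔡 h𝔡
  obtain ⟨L, ht, hn, hχT, hlev, hgood⟩ := hData K t n χT (hT1 K) hχ hcpx 𝔡 h𝔡
  have hB := hBorel K L (hT1 K) hgood
  obtain ⟨hreg, hdecay⟩ := hReg K L (hT1 K) hgood
  have hW := hWeyl hP K L (hT1 K) hgood hB hreg
  have hR := hRat K L.toKData L.η (hT1 K) hB hW
  obtain ⟨hri, hinv⟩ := hRInv K L (hT1 K) hgood hB
  have hS := hStd K L (hT1 K) hgood
  have hO := hOrb K L hcpx (hT1 K) hgood hB hreg hdecay
  have hind : InducedDataT t n χT L.toKData.π := by
    have h := hgood.induced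
    rw [ht, hn, hχT] at h
    exact h
  refine ⟨L.toKData, L.η, ht, hn, hχT, hlev, ?_, hind, ?_⟩
  · exact
      { torus := hgood.torus
        char := hgood.char
        measured := hgood.measured
        weil :=
          { unip := hB.unip
            weyl := hW.weyl
            diagK := hR.diagK
            torK := hR.torK
            tor1 := hB.tor1 }
        regular := hreg
        right_inv := hri }
  · exact
      { quad :=
          { mul := hB.eta_mul
            sq := hB.eta_sq
            cont := hB.eta_cont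
            rat := hW.rat
            norm := hB.eta_norm }
        diagA := hB.diagA
        torA := hB.torA
        good_int := fun v hv => (hgood.good v hv).good_int
        good_char := fun v hv => (hgood.good v hv).good_char
        good_norm := fun v hv => (hgood.good v hv).good_norm
        good_eta := fun v hv => (hgood.good v hv).good_eta
        good_psi := fun v hv => (hgood.good v hv).good_psi
        good_std := hS.good_std
        good_inv := hinv.good_inv
        cpx := hS.cpx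
        cpx_inv := hinv.cpx_inv
        decay := hdecay
        orb_dom := hO.orb_dom
        ne_zero := hO.ne_zero }

/-- The top with the station Props of the other leaves and only the output of this file:
`WL.WeilExC` from the seven other leaves (ORB is discharged). -/
theorem weilEx_of_seven637
    (hT1 : ∀ (K : Type) [Field K] [NumberField K], T1.T1Out K) (hP : Poisson2C)
    (hData : DataC) (hBorel : BorelC) (hReg : RegC) (hWeyl : WeylC) (hRat : RatC)
    (hRInv : RightInvC) (hStd : StdLocC) : WL.WeilExC :=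
  weilEx_of_leaves637 hT1 hP hData hBorel hReg hWeyl hRat hRInv hStd orbC637

end Fermat.Agent.LT.A2.H637

end
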