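import Fermat.Agent.LT.A2.H637.OrbCut

/-!
# Row LT, tower A2, leaf A2.03.1.8 `WX467.OrbC` -- part 3: the torus character on the support
(helper637)

OFF-MAIN.  For a torus character `χT` (finite order, continuous on `T(𝔸_K)`) over a totally
complex field, trivial on the local level groups `Tlev v` (`FinAt.chi_triv`):
`χT m = 1` for every `m ∈ T(𝔸_K)` all of whose finite components are in `Tlev v`.

* the part at infinity `cut e_∞ m` is a `k`-th power in `T(𝔸_K)` (`K_u ≅ ℂ` is algebraically
  closed), `k` the order of `χT`;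
* the part at a finite set `S` of places is a product of local elements;
* the tail `cut (1 - e_∞ - e_S) m` tends to `1` along `S`, and `χT` is continuous.

No sorry, nothing assumed.
-/

set_option autoImplicit false
set_option linter.style.haveILetI false

open IsDedekindDomain NumberField AutomorphicForm MeasureTheory
open scoped MatrixGroups Topology ENNReal

noncomputable section

namespace Fermat.Agent.LT.A2.H637

open Fermat.Agent.LT.H130 Fermat.Agent.LT.H556 Fermat.Agent.LT.A2

variable {K : Type} [Field K] [NumberField K]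

/-! ## Components of adeles -/

theorem adl_ext637 {x y : A0.Adl K} (h1 : ∀ u : InfinitePlace K, x.1 u = y.1 u)
    (h2 : ∀ v : HeightOneSpectrum (𝓞 K), x.2 v = y.2 v) : x = y :=
  Prod.ext (funext h1) (RestrictedProduct.ext _ _ h2)

/-- The projection to the completion at the infinite place `u`. -/
def prInf637 (u : InfinitePlace K) : A0.Adl K →+* u.Completion where
  toFun x := x.1 u
  map_one' := rfl
  map_mul' _ _ := rfl
  map_zero' := rfl
  map_add' _ _ := rfl

/-- The projection to the completion at the finite place `v`. -/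
def prFin637 (v : HeightOneSpectrum (𝓞 K)) : A0.Adl K →+* v.adicCompletion K where
  toFun x := x.2 v
  map_one' := rfl
  map_mul' _ _ := rfl
  map_zero' := rfl
  map_add' _ _ := rfl

@[simp] theorem prInf_apply637 (u : InfinitePlace K) (x : A0.Adl K) : prInf637 u x = x.1 u := rfl

@[simp] theorem prFin_apply637 (v : HeightOneSpectrum (𝓞 K)) (x : A0.Adl K) :
    prFin637 v x = x.2 v := rfl

theorem mat_ext637 {M N : Matrix (Fin 2) (Fin 2) (A0.Adl K)}
    (h1 : ∀ u : InfinitePlace K, M.map (prInf637 u) = N.map (prInf637 u))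
    (h2 : ∀ v : HeightOneSpectrum (𝓞 K), M.map (prFin637 v) = N.map (prFin637 v)) : M = N := by
  ext i j
  refine adl_ext637 (fun u => ?_) (fun v => ?_)
  · have := congrFun (congrFun (h1 u) i) j
    simpa using this
  · have := congrFun (congrFun (h2 v) i) j
    simpa using this

theorem finComp_eq_map637 (v : HeightOneSpectrum (𝓞 K)) (g : A0.G K) :
    A0.finComp v g = (g : Matrix (Fin 2) (Fin 2) (A0.Adl K)).map (prFin637 v) := rfl

theorem infMat_eq_map637 (u : InfinitePlace K) (g : A0.G K) :
    WX467.infMat u g = (g : Matrix (Fin 2) (Fin 2) (A0.Adl K)).map (prInf637 u) := rfl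

theorem map_one_mat637 {R R' : Type*} [CommRing R] [CommRing R'] (f : R →+* R') :
    (1 : Matrix (Fin 2) (Fin 2) R).map f = 1 := by
  ext i j
  by_cases hij : i = j
  · subst hij; simp
  · simp [Matrix.one_apply_ne hij]

theorem finComp_one637 (v : HeightOneSpectrum (𝓞 K)) : A0.finComp v (1 : A0.G K) = 1 := by
  rw [finComp_eq_map637, Units.val_one, map_one_mat637]

theorem infMat_one637 (u : InfinitePlace K) : WX467.infMat u (1 : A0.G K) = 1 := by
  rw [infMat_eq_map637, Units.val_one, map_one_mat637]

/-! ## The idempotents -/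

/-- The idempotent of the infinite places. -/
def eInf637 : A0.Adl K := ((1 : InfiniteAdeleRing K), (0 : FiniteAdeleRing (𝓞 K) K))

open Classical in
/-- The integral family `1_S`. -/
def indFam637 (S : Finset (HeightOneSpectrum (𝓞 K))) :
    ∀ v : HeightOneSpectrum (𝓞 K), v.adicCompletionIntegers K :=
  fun v => if v ∈ S then 1 else 0

/-- The idempotent of the finite set `S` of finite places. -/
def eFin637 (S : Finset (HeightOneSpectrum (𝓞 K))) : A0.Adl K :=
  ((0 : InfiniteAdeleRing K), RestrictedProduct.structureMap _ _ _ (indFam637 S))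

theorem eInf_fst637 (u : InfinitePlace K) : (eInf637 : A0.Adl K).1 u = 1 := rfl

theorem eInf_snd637 (v : HeightOneSpectrum (𝓞 K)) : (eInf637 : A0.Adl K).2 v = 0 := rfl

theorem eFin_fst637 (S : Finset (HeightOneSpectrum (𝓞 K))) (u : InfinitePlace K) :
    (eFin637 S).1 u = 0 := rfl

theorem eFin_snd_mem637 {S : Finset (HeightOneSpectrum (𝓞 K))} {v : HeightOneSpectrum (𝓞 K)}
    (hv : v ∈ S) : (eFin637 S).2 v = 1 := by
  show ((indFam637 S v : v.adicCompletionIntegers K) : v.adicCompletion K) = 1
  simp [indFam637, hv]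

theorem eFin_snd_notMem637 {S : Finset (HeightOneSpectrum (𝓞 K))}
    {v : HeightOneSpectrum (𝓞 K)} (hv : v ∉ S) : (eFin637 S).2 v = 0 := by
  show ((indFam637 S v : v.adicCompletionIntegers K) : v.adicCompletion K) = 0
  simp [indFam637, hv]

theorem eInf_idem637 : (eInf637 : A0.Adl K) * eInf637 = eInf637 :=
  adl_ext637 (fun u => by show (1 : u.Completion) * 1 = 1; rw [mul_one])
    (fun v => by show (0 : v.adicCompletion K) * 0 = 0; rw [mul_zero])

theorem eFin_idem637 (S : Finset (HeightOneSpectrum (𝓞 K))) :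
    eFin637 S * eFin637 S = eFin637 S := by
  refine adl_ext637 (fun u => by show (0 : u.Completion) * 0 = 0; rw [mul_zero]) (fun v => ?_)
  show (eFin637 S).2 v * (eFin637 S).2 v = (eFin637 S).2 v
  by_cases hv : v ∈ S
  · rw [eFin_snd_mem637 hv, mul_one]
  · rw [eFin_snd_notMem637 hv, mul_zero]

theorem eInf_mul_eFin637 (S : Finset (HeightOneSpectrum (𝓞 K))) :
    (eInf637 : A0.Adl K) * eFin637 S = 0 :=
  adl_ext637 (fun u => by show (1 : u.Completion) * 0 = 0; rw [mul_zero])
    (fun v => by
      show (0 : v.adicCompletion K) * (eFin637 S).2 v = 0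
      rw [zero_mul])

theorem eFin_mul_eFin637 {S S' : Finset (HeightOneSpectrum (𝓞 K))} (h : Disjoint S S') :
    eFin637 S * eFin637 S' = 0 := by
  refine adl_ext637 (fun u => by show (0 : u.Completion) * 0 = 0; rw [mul_zero]) (fun v => ?_)
  show (eFin637 S).2 v * (eFin637 S').2 v = 0
  by_cases hv : v ∈ S
  · rw [eFin_snd_notMem637 (Finset.disjoint_left.mp h hv), mul_zero]
  · rw [eFin_snd_notMem637 hv, zero_mul]

open Classical in
theorem eFin_insert637 {S : Finset (HeightOneSpectrum (𝓞 K))} {v : HeightOneSpectrum (𝓞 K)}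
    (hv : v ∉ S) : eFin637 (insert v S) = eFin637 {v} + eFin637 S := by
  refine adl_ext637 (fun u => by show (0 : u.Completion) = 0 + 0; rw [add_zero]) (fun w => ?_)
  show (eFin637 (insert v S)).2 w = (eFin637 {v}).2 w + (eFin637 S).2 w
  by_cases hw : w = v
  · subst hw
    rw [eFin_snd_mem637 (Finset.mem_insert_self _ _), eFin_snd_mem637 (Finset.mem_singleton_self _),
      eFin_snd_notMem637 hv, add_zero]
  · by_cases hwS : w ∈ S
    · rw [eFin_snd_mem637 (Finset.mem_insert_of_mem hwS), eFin_snd_mem637 hwS,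
        eFin_snd_notMem637 (by simpa using hw), zero_add]
    · rw [eFin_snd_notMem637 (by simp [hw, hwS]), eFin_snd_notMem637 hwS,
        eFin_snd_notMem637 (by simpa using hw), zero_add]

theorem eFin_empty637 : eFin637 (∅ : Finset (HeightOneSpectrum (𝓞 K))) = 0 :=
  adl_ext637 (fun _ => rfl) (fun v => eFin_snd_notMem637 (Finset.notMem_empty v))

/-- The idempotent of the places outside `S` and the infinite places. -/
def eTail637 (S : Finset (HeightOneSpectrum (𝓞 K))) : A0.Adl K := 1 - eInf637 - eFin637 S

theorem eTail_idem637 (S : Finset (HeightOneSpectrum (𝓞 K))) :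
    eTail637 S * eTail637 S = eTail637 S := by
  have h1 := eInf_idem637 (K := K)
  have h2 := eFin_idem637 S
  have h3 := eInf_mul_eFin637 S
  rw [eTail637]
  linear_combination h1 + h2 + 2 * h3

theorem eInf_add_eFin_idem637 (S : Finset (HeightOneSpectrum (𝓞 K))) :
    (eInf637 + eFin637 S) * (eInf637 + eFin637 S) = eInf637 + eFin637 S := by
  have h1 := eInf_idem637 (K := K)
  have h2 := eFin_idem637 S
  have h3 := eInf_mul_eFin637 S
  linear_combination h1 + h2 + 2 * h3

theorem eTail_orth637 (S : Finset (HeightOneSpectrum (𝓞 K))) :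
    (eInf637 + eFin637 S) * eTail637 S = 0 := by
  have h := eInf_add_eFin_idem637 S
  rw [eTail637]
  linear_combination -h

theorem eTail_sum637 (S : Finset (HeightOneSpectrum (𝓞 K))) :
    (eInf637 + eFin637 S) + eTail637 S = 1 := by
  rw [eTail637]; ring

/-- The idempotents of the finite sets tend to the idempotent of the finite places. -/
theorem tendsto_eFin637 :
    Filter.Tendsto (fun S : Finset (HeightOneSpectrum (𝓞 K)) => eFin637 S) Filter.atTop
      (𝓝 (1 - eInf637)) := by
  have h0 : Filter.Tendsto (fun S : Finset (HeightOneSpectrum (𝓞 K)) => indFam637 S)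
      Filter.atTop (𝓝 (fun _ => 1)) := by
    rw [tendsto_pi_nhds]
    intro v
    refine tendsto_const_nhds.congr' ?_
    filter_upwards [Filter.eventually_ge_atTop ({v} : Finset (HeightOneSpectrum (𝓞 K)))]
      with S hS
    have hv : v ∈ S := hS (Finset.mem_singleton_self v)
    simp [indFam637, hv]
  have h1 : Filter.Tendsto (fun S : Finset (HeightOneSpectrum (𝓞 K)) =>
      RestrictedProduct.structureMap (fun v : HeightOneSpectrum (𝓞 K) => v.adicCompletion K)
        (fun v => (v.adicCompletionIntegers K : Set (v.adicCompletion K))) Filter.cofinite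
        (indFam637 S)) Filter.atTop
      (𝓝 (RestrictedProduct.structureMap _ _ _ (fun _ => 1))) :=
    (RestrictedProduct.isEmbedding_structureMap.continuous.tendsto _).comp h0
  have h2 : (1 - eInf637 : A0.Adl K)
      = ((0 : InfiniteAdeleRing K),
          (RestrictedProduct.structureMap (fun v : HeightOneSpectrum (𝓞 K) => v.adicCompletion K)
            (fun v => (v.adicCompletionIntegers K : Set (v.adicCompletion K))) Filter.cofinite
            (fun _ => 1) : FiniteAdeleRing (𝓞 K) K)) := by
    refine adl_ext637 (fun u => ?_) (fun v => ?_)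
    · show (1 : u.Completion) - 1 = 0
      rw [sub_self]
    · show (1 : v.adicCompletion K) - 0 = ((1 : v.adicCompletionIntegers K) : v.adicCompletion K)
      simp
  rw [h2]
  exact Filter.Tendsto.prodMk_nhds tendsto_const_nhds h1

theorem tendsto_eTail637 :
    Filter.Tendsto (fun S : Finset (HeightOneSpectrum (𝓞 K)) => eTail637 S) Filter.atTop
      (𝓝 0) := by
  have h : Filter.Tendsto (fun S : Finset (HeightOneSpectrum (𝓞 K)) =>
      (1 - eInf637 : A0.Adl K) - eFin637 S) Filter.atTop (𝓝 ((1 - eInf637) - (1 - eInf637))) :=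
    tendsto_const_nhds.sub tendsto_eFin637
  rw [sub_self] at h
  exact h

/-! ## The cut on `GL₂(𝔸_K)` -/

theorem inTorus_cut637 {t n : K} (e : A0.Adl K) (he : e * e = e) {m : A0.G K}
    (h : InTorus t n m) : InTorus t n (cut637 e he m) := by
  obtain ⟨a, b, hab⟩ := h
  exact ⟨e * a + (1 - e), e * b, by rw [cut_val637, hab, cutMat_torMat637]⟩

theorem finComp_cut_one637 (e : A0.Adl K) (he : e * e = e) (v : HeightOneSpectrum (𝓞 K))
    (hv : e.2 v = 1) (m : A0.G K) : A0.finComp v (cut637 e he m) = A0.finComp v m := by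
  rw [finComp_eq_map637, finComp_eq_map637, cut_val637, map_cutMat637, prFin_apply637, hv,
    cutMat_one_left637]

theorem finComp_cut_zero637 (e : A0.Adl K) (he : e * e = e) (v : HeightOneSpectrum (𝓞 K))
    (hv : e.2 v = 0) (m : A0.G K) : A0.finComp v (cut637 e he m) = 1 := by
  rw [finComp_eq_map637, cut_val637, map_cutMat637, prFin_apply637, hv, cutMat_zero637]

theorem trivAtInf_cut637 (e : A0.Adl K) (he : e * e = e) (u : InfinitePlace K)
    (hu : e.1 u = 0) (m : A0.G K) : A0.TrivAtInf u (cut637 e he m) := by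
  intro i j
  have h : ((cut637 e he m : A0.G K) : Matrix (Fin 2) (Fin 2) (A0.Adl K)).map (prInf637 u)
      = 1 := by
    rw [cut_val637, map_cutMat637, prInf_apply637, hu, cutMat_zero637]
  exact congrFun (congrFun h i) j

/-! ## The torus character -/

section Char

variable {t n : K} {χT : A0.G K → ℂ}

theorem chi_pow637 (hχ : IsTorusChar t n χT) {r : A0.G K} (hr : InTorus t n r) (k : ℕ) :
    InTorus t n (r ^ k) ∧ χT (r ^ k) = χT r ^ k := by
  induction k with
  | zero =>
    exact ⟨by rw [pow_zero]; exact inTorus_one637 t n, by rw [pow_zero, pow_zero]; exact hχ.one⟩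
  | succ k ih =>
    refine ⟨by rw [pow_succ]; exact inTorus_mul637 ih.1 hr, ?_⟩
    rw [pow_succ, hχ.mul _ _ ih.1 hr, ih.2, pow_succ]

theorem disc_ne_zero637 (hχ : IsTorusChar t n χT) : t ^ 2 - 4 * n ≠ 0 := by
  intro h
  refine hχ.irred (t / 2) ?_
  field_simp
  linear_combination -h

/-- The part at infinity of an element of the torus is a `k`-th power: `χT = 1` on it. -/
theorem chi_cut_inf637 (hχ : IsTorusChar t n χT) (hcpx : ∀ u : InfinitePlace K, u.IsComplex)
    {m : A0.G K} (hm : InTorus t n m) : χT (cut637 eInf637 eInf_idem637 m) = 1 := by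
  obtain ⟨k, hk, hord⟩ := hχ.fin_order
  obtain ⟨a, b, hab⟩ := hm
  have hdisc := disc_ne_zero637 hχ
  have hunit : IsUnit (m : Matrix (Fin 2) (Fin 2) (A0.Adl K)).det :=
    (Matrix.isUnit_iff_isUnit_det _).mp m.isUnit
  have hloc : ∀ u : InfinitePlace K, ∃ α β : u.Completion,
      torMat (algebraMap K u.Completion t) (algebraMap K u.Completion n) α β ^ k
        = torMat (algebraMap K u.Completion t) (algebraMap K u.Completion n) (a.1 u) (b.1 u)
      ∧ α ^ 2 + algebraMap K u.Completion t * α * β + algebraMap K u.Completion n * β ^ 2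
          ≠ 0 := by
    intro u
    haveI : IsAlgClosed u.Completion := IsAlgClosed.of_ringEquiv ℂ u.Completion
      (InfinitePlace.Completion.ringEquivComplexOfIsComplex (hcpx u)).symm
    refine exists_torMat_pow637 _ _ _ _ ?_ ?_ ?_ hk
    · have h : algebraMap K u.Completion (t ^ 2 - 4 * n) ≠ 0 := (map_ne_zero _).mpr hdisc
      rw [map_sub, map_pow, map_mul, map_ofNat] at h
      exact h
    · have h : algebraMap K u.Completion 2 ≠ 0 := (map_ne_zero _).mpr two_ne_zero
      rw [map_ofNat] at h
      exact h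
    · have h := (hunit.map (prInf637 u)).ne_zero
      rw [hab, torMat_det637] at h
      exact h
  choose α β hαβ hQ using hloc
  set αA : A0.Adl K := ((fun u => α u : InfiniteAdeleRing K), (1 : FiniteAdeleRing (𝓞 K) K))
    with hαA
  set βA : A0.Adl K := ((fun u => β u : InfiniteAdeleRing K), (0 : FiniteAdeleRing (𝓞 K) K))
    with hβA
  set rM : Matrix (Fin 2) (Fin 2) (A0.Adl K) :=
    torMat (algebraMap K (A0.Adl K) t) (algebraMap K (A0.Adl K) n) αA βA with hrM
  have hdetr : IsUnit rM.det := by
    rw [hrM, torMat_det637]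
    refine IsUnit.of_mul_eq_one
      (((fun u => (α u ^ 2 + algebraMap K u.Completion t * α u * β u
          + algebraMap K u.Completion n * β u ^ 2)⁻¹ : InfiniteAdeleRing K),
        (1 : FiniteAdeleRing (𝓞 K) K)) : A0.Adl K) ?_
    refine adl_ext637 (fun u => ?_) (fun v => ?_)
    · exact mul_inv_cancel₀ (hQ u)
    · show ((1 : v.adicCompletion K) ^ 2 + algebraMap K (v.adicCompletion K) t * 1 * 0
        + algebraMap K (v.adicCompletion K) n * 0 ^ 2) * 1 = 1
      ring
  set r : A0.G K := Matrix.GeneralLinearGroup.mk'' rM hdetr with hr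
  have hrval : (r : Matrix (Fin 2) (Fin 2) (A0.Adl K)) = rM := rfl
  have hrT : InTorus t n r := ⟨αA, βA, hrval⟩
  have hpow : r ^ k = cut637 eInf637 eInf_idem637 m := by
    apply Units.ext
    rw [Units.val_pow_eq_pow_val, hrval, cut_val637, hab, cutMat_torMat637]
    refine mat_ext637 (fun u => ?_) (fun v => ?_)
    · rw [← RingHom.mapMatrix_apply, map_pow, RingHom.mapMatrix_apply, hrM, map_torMat637,
        map_torMat637]
      have e1 : prInf637 u (eInf637 * a + (1 - eInf637)) = a.1 u := by
        show 1 * a.1 u + (1 - 1) = a.1 u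
        ring
      have e2 : prInf637 u (eInf637 * b) = b.1 u := by
        show 1 * b.1 u = b.1 u
        ring
      rw [e1, e2]
      exact hαβ u
    · rw [← RingHom.mapMatrix_apply, map_pow, RingHom.mapMatrix_apply, hrM, map_torMat637,
        map_torMat637]
      have e1 : prFin637 v αA = 1 := rfl
      have e2 : prFin637 v βA = 0 := rfl
      have e3 : prFin637 v (eInf637 * a + (1 - eInf637)) = 1 := by
        show 0 * a.2 v + (1 - 0) = 1
        ring
      have e4 : prFin637 v (eInf637 * b) = 0 := by
        show 0 * b.2 v = 0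
        ring
      rw [e1, e2, e3, e4, torMat_one637, one_pow]
  rw [← hpow, (chi_pow637 hχ hrT k).2]
  exact hord r hrT

/-- The part at a finite set of finite places is a product of local elements. -/
theorem chi_cut_fin637 (hχ : IsTorusChar t n χT)
    (Tlev : ∀ v : HeightOneSpectrum (𝓞 K), Set (Matrix (Fin 2) (Fin 2) (v.adicCompletion K)))
    (htriv : ∀ (v : HeightOneSpectrum (𝓞 K)) (κ : A0.G K), A0.IsLocalAtFin v κ →
      A0.finComp v κ ∈ Tlev v → χT κ = 1)
    {m : A0.G K} (hm : InTorus t n m) (hlev : ∀ v, A0.finComp v m ∈ Tlev v)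
    (S : Finset (HeightOneSpectrum (𝓞 K))) :
    χT (cut637 (eFin637 S) (eFin_idem637 S) m) = 1 := by
  classical
  induction S using Finset.induction_on with
  | empty =>
    have h1 : cut637 (eFin637 ∅) (eFin_idem637 ∅) m = 1 :=
      Units.ext (by rw [cut_val637, eFin_empty637, cutMat_zero637]; rfl)
    rw [h1]
    exact hχ.one
  | insert v S hv ih =>
    have hdec : cut637 (eFin637 (insert v S)) (eFin_idem637 _) m
        = cut637 (eFin637 {v}) (eFin_idem637 _) m * cut637 (eFin637 S) (eFin_idem637 S) m :=
      Units.ext (by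
        rw [Units.val_mul, cut_val637, cut_val637, cut_val637, eFin_insert637 hv,
          cutMat_add637 (eFin_mul_eFin637 (Finset.disjoint_singleton_left.mpr hv))])
    rw [hdec, hχ.mul _ _ (inTorus_cut637 _ _ hm) (inTorus_cut637 _ _ hm), ih, mul_one]
    refine htriv v _ ⟨fun u => trivAtInf_cut637 _ _ u (eFin_fst637 _ u) m, fun v' hv' => ?_⟩ ?_
    · exact finComp_cut_zero637 _ _ v' (eFin_snd_notMem637 (by simpa using hv')) m
    · rw [finComp_cut_one637 _ _ v (eFin_snd_mem637 (Finset.mem_singleton_self v)) m]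
      exact hlev v

/-- **The torus character is trivial on the elements with finite components in the level
groups** (totally complex base field). -/
theorem chi_eq_one637 (hχ : IsTorusChar t n χT) (hcpx : ∀ u : InfinitePlace K, u.IsComplex)
    (Tlev : ∀ v : HeightOneSpectrum (𝓞 K), Set (Matrix (Fin 2) (Fin 2) (v.adicCompletion K)))
    (htriv : ∀ (v : HeightOneSpectrum (𝓞 K)) (κ : A0.G K), A0.IsLocalAtFin v κ →
      A0.finComp v κ ∈ Tlev v → χT κ = 1)
    {m : A0.G K} (hm : InTorus t n m) (hlev : ∀ v, A0.finComp v m ∈ Tlev v) : χT m = 1 := by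
  have hconst : ∀ S : Finset (HeightOneSpectrum (𝓞 K)),
      χT (cut637 (eTail637 S) (eTail_idem637 S) m) = χT m := by
    intro S
    have hdec : m = cut637 eInf637 eInf_idem637 m * cut637 (eFin637 S) (eFin_idem637 S) m
        * cut637 (eTail637 S) (eTail_idem637 S) m := by
      apply Units.ext
      rw [Units.val_mul, Units.val_mul, cut_val637, cut_val637, cut_val637,
        ← cutMat_add637 (eInf_mul_eFin637 S), ← cutMat_add637 (eTail_orth637 S),
        eTail_sum637, cutMat_one_left637]
    have h1 := chi_cut_inf637 hχ hcpx hm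
    have h2 := chi_cut_fin637 hχ Tlev htriv hm hlev S
    conv_rhs => rw [hdec]
    rw [hχ.mul _ _ (inTorus_mul637 (inTorus_cut637 _ _ hm) (inTorus_cut637 _ _ hm))
        (inTorus_cut637 _ _ hm),
      hχ.mul _ _ (inTorus_cut637 _ _ hm) (inTorus_cut637 _ _ hm), h1, h2, one_mul, one_mul]
  have hc : ∀ M : Matrix (Fin 2) (Fin 2) (A0.Adl K),
      Filter.Tendsto (fun S : Finset (HeightOneSpectrum (𝓞 K)) => cutMat637 (eTail637 S) M)
        Filter.atTop (𝓝 1) := by
    intro M
    have hcont : Continuous fun e : A0.Adl K => cutMat637 e M :=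
      (continuous_id.smul continuous_const).add
        ((continuous_const.sub continuous_id).smul continuous_const)
    have h := (hcont.tendsto 0).comp tendsto_eTail637
    rw [cutMat_zero637] at h
    exact h
  have htend : Filter.Tendsto
      (fun S : Finset (HeightOneSpectrum (𝓞 K)) => cut637 (eTail637 S) (eTail_idem637 S) m)
      Filter.atTop (𝓝 1) := by
    rw [Units.isInducing_embedProduct.tendsto_nhds_iff]
    exact Filter.Tendsto.prodMk_nhds (hc _) ((MulOpposite.continuous_op.tendsto _).comp (hc _))
  have hwithin : Filter.Tendsto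
      (fun S : Finset (HeightOneSpectrum (𝓞 K)) => cut637 (eTail637 S) (eTail_idem637 S) m)
      Filter.atTop (𝓝[{m | InTorus t n m}] 1) :=
    tendsto_nhdsWithin_iff.mpr
      ⟨htend, Filter.Eventually.of_forall fun S => inTorus_cut637 _ _ hm⟩
  have hlim := (hχ.cont 1 (inTorus_one637 t n)).tendsto.comp hwithin
  have hlim' : Filter.Tendsto (fun _ : Finset (HeightOneSpectrum (𝓞 K)) => χT m) Filter.atTop
      (𝓝 (χT 1)) := hlim.congr fun S => hconst S
  have h := tendsto_nhds_unique hlim' tendsto_const_nhds
  rw [← h]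
  exact hχ.one

end Char

end Fermat.Agent.LT.A2.H637

end
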