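import Fermat.Agent.LT.A2.H637.OrbDom

/-!
# Row LT, tower A2, leaf A2.03.1.8 `WX467.OrbC` -- part 2: cutting by idempotents (helper637)

OFF-MAIN.  For an idempotent `e` of a commutative ring `R` the map `M ↦ e M + (1 - e)` is a
monoid endomorphism of `M₂(R)`; on `GL₂(𝔸_K)` it replaces the components of `g` at the places
outside the support of `e` by `1`.  Orthogonal idempotents give commuting factors:
`cut (e + e') g = cut e g * cut e' g`.  Roots in the torus over an algebraically closed field.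

No sorry, nothing assumed.
-/

set_option autoImplicit false
set_option linter.style.haveILetI false

open IsDedekindDomain NumberField AutomorphicForm MeasureTheory
open scoped MatrixGroups Topology ENNReal

noncomputable section

namespace Fermat.Agent.LT.A2.H637

open Fermat.Agent.LT.H130 Fermat.Agent.LT.H556 Fermat.Agent.LT.A2

/-! ## The cut of a matrix by an idempotent -/

section Cut

variable {R : Type*} [CommRing R]

/-- `e M + (1 - e)`. -/
def cutMat637 (e : R) (M : Matrix (Fin 2) (Fin 2) R) : Matrix (Fin 2) (Fin 2) R :=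
  e • M + (1 - e) • (1 : Matrix (Fin 2) (Fin 2) R)

theorem cutMat_apply637 (e : R) (M : Matrix (Fin 2) (Fin 2) R) (i j : Fin 2) :
    cutMat637 e M i j = e * M i j + (1 - e) * (1 : Matrix (Fin 2) (Fin 2) R) i j := by
  simp [cutMat637]

theorem cutMat_one637 (e : R) : cutMat637 e (1 : Matrix (Fin 2) (Fin 2) R) = 1 := by
  rw [cutMat637, ← add_smul, add_sub_cancel, one_smul]

theorem cutMat_mul637 {e : R} (he : e * e = e) (M N : Matrix (Fin 2) (Fin 2) R) :
    cutMat637 e (M * N) = cutMat637 e M * cutMat637 e N := by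
  have h1 : e * (1 - e) = 0 := by rw [mul_sub, mul_one, he, sub_self]
  have h2 : (1 - e) * e = 0 := by rw [mul_comm, h1]
  have h3 : (1 - e) * (1 - e) = 1 - e := by rw [sub_mul, one_mul, h1, sub_zero]
  simp only [cutMat637, add_mul, mul_add, Matrix.smul_mul, Matrix.mul_smul, smul_smul,
    Matrix.one_mul, Matrix.mul_one, he, h1, h2, h3, zero_smul, add_zero, zero_add]

/-- The cut as a monoid endomorphism of `M₂(R)`. -/
def cutHom637 (e : R) (he : e * e = e) :
    Matrix (Fin 2) (Fin 2) R →* Matrix (Fin 2) (Fin 2) R where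
  toFun := cutMat637 e
  map_one' := cutMat_one637 e
  map_mul' := cutMat_mul637 he

/-- The cut as an endomorphism of `GL₂(R)`. -/
def cut637 (e : R) (he : e * e = e) : GL (Fin 2) R →* GL (Fin 2) R :=
  Units.map (cutHom637 e he)

theorem cut_val637 (e : R) (he : e * e = e) (g : GL (Fin 2) R) :
    ((cut637 e he g : GL (Fin 2) R) : Matrix (Fin 2) (Fin 2) R)
      = cutMat637 e (g : Matrix (Fin 2) (Fin 2) R) := rfl

theorem cut_inv_val637 (e : R) (he : e * e = e) (g : GL (Fin 2) R) :
    (((cut637 e he g)⁻¹ : GL (Fin 2) R) : Matrix (Fin 2) (Fin 2) R)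
      = cutMat637 e ((g⁻¹ : GL (Fin 2) R) : Matrix (Fin 2) (Fin 2) R) := rfl

theorem cutMat_zero637 (M : Matrix (Fin 2) (Fin 2) R) : cutMat637 (0 : R) M = 1 := by
  simp [cutMat637]

theorem cutMat_one_left637 (M : Matrix (Fin 2) (Fin 2) R) : cutMat637 (1 : R) M = M := by
  simp [cutMat637]

theorem cutMat_add637 {e e' : R} (h : e * e' = 0) (M : Matrix (Fin 2) (Fin 2) R) :
    cutMat637 (e + e') M = cutMat637 e M * cutMat637 e' M := by
  have h' : e' * e = 0 := by rw [mul_comm, h]
  have h1 : e' * (1 - e) = e' := by rw [mul_sub, mul_one, h', sub_zero]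
  have h2 : (1 - e') * e = e := by rw [sub_mul, one_mul, h', sub_zero]
  have h3 : (1 - e') * (1 - e) = 1 - (e + e') := by linear_combination h'
  simp only [cutMat637, add_mul, mul_add, Matrix.smul_mul, Matrix.mul_smul, smul_smul,
    Matrix.one_mul, Matrix.mul_one, h', h1, h2, h3, zero_smul, zero_add, add_smul]
  abel

theorem cutMat_torMat637 (t n e a b : R) :
    cutMat637 e (torMat t n a b) = torMat t n (e * a + (1 - e)) (e * b) := by
  ext i j
  fin_cases i <;> fin_cases j <;> simp [cutMat_apply637, torMat] <;> ring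

/-- The cut commutes with ring homomorphisms. -/
theorem map_cutMat637 {R' : Type*} [CommRing R'] (f : R →+* R') (e : R)
    (M : Matrix (Fin 2) (Fin 2) R) :
    (cutMat637 e M).map f = cutMat637 (f e) (M.map f) := by
  ext i j
  simp only [Matrix.map_apply, cutMat_apply637, map_add, map_mul, map_sub, map_one]
  congr 2
  by_cases hij : i = j
  · subst hij; simp
  · simp [Matrix.one_apply_ne hij]

theorem map_torMat637 {R' : Type*} [CommRing R'] (f : R →+* R') (t n a b : R) :
    (torMat t n a b).map f = torMat (f t) (f n) (f a) (f b) := by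
  ext i j
  fin_cases i <;> fin_cases j <;> simp [torMat]

end Cut

/-! ## Roots in the torus over an algebraically closed field -/

section Roots

variable {F : Type*} [Field F]

/-- The coordinates of `(α + β ω)^k`. -/
def torPow637 (t n α β : F) : ℕ → F × F
  | 0 => (1, 0)
  | k + 1 => ((torPow637 t n α β k).1 * α - n * ((torPow637 t n α β k).2 * β),
      (torPow637 t n α β k).1 * β + (torPow637 t n α β k).2 * α
        + t * ((torPow637 t n α β k).2 * β))

theorem torMat_pow637 (t n α β : F) (k : ℕ) :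
    torMat t n α β ^ k = torMat t n (torPow637 t n α β k).1 (torPow637 t n α β k).2 := by
  induction k with
  | zero => rw [pow_zero]; exact (torMat_one637 t n).symm
  | succ k ih => rw [pow_succ, ih, torMat_mul637]; rfl

theorem torPow_eval637 (t n α β ω : F) (hω : ω ^ 2 = t * ω - n) (k : ℕ) :
    (torPow637 t n α β k).1 + ω * (torPow637 t n α β k).2 = (α + ω * β) ^ k := by
  induction k with
  | zero => simp [torPow637]
  | succ k ih =>
    rw [pow_succ, ← ih]
    simp only [torPow637]
    linear_combination (-(torPow637 t n α β k).2 * β) * hω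

/-- `k`-th roots in the torus `T(F)`, `F` algebraically closed, `t² ≠ 4 n`. -/
theorem exists_torMat_pow637 [IsAlgClosed F] (t n a b : F) (hdisc : t ^ 2 - 4 * n ≠ 0)
    (h2 : (2 : F) ≠ 0) (hdet : a ^ 2 + t * a * b + n * b ^ 2 ≠ 0) {k : ℕ} (hk : 0 < k) :
    ∃ α β : F, torMat t n α β ^ k = torMat t n a b ∧ α ^ 2 + t * α * β + n * β ^ 2 ≠ 0 := by
  obtain ⟨s, hs⟩ := IsAlgClosed.exists_eq_mul_self (t ^ 2 - 4 * n)
  have hs0 : s ≠ 0 := by
    rintro rfl
    exact hdisc (by rw [hs, mul_zero])
  set ω₁ : F := (t + s) / 2 with hω₁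
  set ω₂ : F := (t - s) / 2 with hω₂
  have hsum : ω₁ + ω₂ = t := by rw [hω₁, hω₂]; field_simp; ring
  have hprod : ω₁ * ω₂ = n := by
    rw [hω₁, hω₂]
    field_simp
    linear_combination hs
  have hdiff : ω₁ - ω₂ = s := by rw [hω₁, hω₂]; field_simp; ring
  have hr1 : ω₁ ^ 2 = t * ω₁ - n := by rw [← hsum, ← hprod]; ring
  have hr2 : ω₂ ^ 2 = t * ω₂ - n := by rw [← hsum, ← hprod]; ring
  have hfac : a ^ 2 + t * a * b + n * b ^ 2 = (a + ω₁ * b) * (a + ω₂ * b) := by
    rw [← hsum, ← hprod]; ring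
  have hl1 : a + ω₁ * b ≠ 0 := fun h => hdet (by rw [hfac, h, zero_mul])
  have hl2 : a + ω₂ * b ≠ 0 := fun h => hdet (by rw [hfac, h, mul_zero])
  obtain ⟨ρ₁, hρ₁⟩ := IsAlgClosed.exists_pow_nat_eq (a + ω₁ * b) hk
  obtain ⟨ρ₂, hρ₂⟩ := IsAlgClosed.exists_pow_nat_eq (a + ω₂ * b) hk
  have hρ₁0 : ρ₁ ≠ 0 := by
    rintro rfl
    rw [zero_pow hk.ne'] at hρ₁
    exact hl1 hρ₁.symm
  have hρ₂0 : ρ₂ ≠ 0 := by
    rintro rfl
    rw [zero_pow hk.ne'] at hρ₂
    exact hl2 hρ₂.symm
  set β : F := (ρ₁ - ρ₂) / s with hβ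
  set α : F := ρ₁ - ω₁ * β with hα
  have e1 : α + ω₁ * β = ρ₁ := by rw [hα]; ring
  have e2 : α + ω₂ * β = ρ₂ := by
    rw [hα, hβ]
    have : (ω₂ - ω₁) * ((ρ₁ - ρ₂) / s) = -(ρ₁ - ρ₂) := by
      rw [← neg_sub ω₁ ω₂, hdiff]; field_simp
    linear_combination this
  refine ⟨α, β, ?_, ?_⟩
  · rw [torMat_pow637]
    have p1 := torPow_eval637 t n α β ω₁ hr1 k
    have p2 := torPow_eval637 t n α β ω₂ hr2 k
    rw [e1, hρ₁] at p1
    rw [e2, hρ₂] at p2
    have hy : (torPow637 t n α β k).2 = b := by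
      have : s * ((torPow637 t n α β k).2 - b) = 0 := by
        rw [← hdiff]; linear_combination p1 - p2
      rcases mul_eq_zero.mp this with h | h
      · exact absurd h hs0
      · exact sub_eq_zero.mp h
    have hx : (torPow637 t n α β k).1 = a := by
      rw [hy] at p1; linear_combination p1
    rw [hx, hy]
  · have : α ^ 2 + t * α * β + n * β ^ 2 = (α + ω₁ * β) * (α + ω₂ * β) := by
      rw [← hsum, ← hprod]; ring
    rw [this, e1, e2]
    exact mul_ne_zero hρ₁0 hρ₂0

end Roots

end Fermat.Agent.LT.A2.H637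

end
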