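import Fermat.Agent.LT.A2.H467.WeilExSpec

/-!
# Row LT, tower A2, leaf A2.03.1.8 `WX467.OrbC` -- part 1: `orb_dom` (helper637)

OFF-MAIN.  The domination of the orbital integrand, by UNFOLDING over the fundamental domain
`DT` of `T¹(K)` in `T¹(𝔸_K)`:  for `m ∈ T¹(𝔸_K)` there is a unique `y ∈ T¹(K)` with `y m ∈ DT`, and

    F g (m m₂) (1, 0) = F g ((y m) m₂) (y (1, 0)),        y (1, 0) = (a, b) ∈ K²,

so that `‖F g (m m₂) (1, 0)‖ ≤ b' (a, b)` for the bound `b'` of `IsRegular.loc_summable` on the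
compact set `{(g, d m₂) : d ∈ closure DT, (g, m₂) ∈ C}`.  The dominating function is
`h = ∑_ξ |b' ξ| 1_{S ξ}`, `S ξ = y_ξ⁻¹ DT`, of integral `≤ μT(DT) ∑ |b'|`.

No sorry, nothing assumed.
-/

set_option autoImplicit false
set_option linter.style.haveILetI false

open IsDedekindDomain NumberField AutomorphicForm MeasureTheory
open scoped MatrixGroups Topology ENNReal

noncomputable section

namespace Fermat.Agent.LT.A2.H637

open Fermat.Agent.LT.H130 Fermat.Agent.LT.H556 Fermat.Agent.LT.A2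

/-! ## Algebra of the torus -/

section TorAlg

variable {R : Type*} [CommRing R]

theorem torMat_mul637 (t n a b c d : R) :
    torMat t n a b * torMat t n c d
      = torMat t n (a * c - n * (b * d)) (a * d + b * c + t * (b * d)) := by
  ext i j
  fin_cases i <;> fin_cases j <;>
    simp [torMat, Matrix.mul_apply, Fin.sum_univ_two] <;> ring

theorem torMat_one637 (t n : R) : torMat t n 1 0 = 1 := by
  ext i j
  fin_cases i <;> fin_cases j <;> simp [torMat]

theorem torMat_det637 (t n a b : R) :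
    (torMat t n a b).det = a ^ 2 + t * a * b + n * b ^ 2 := by
  simp only [torMat, Matrix.det_fin_two_of]
  ring

end TorAlg

section TorGrp

variable {K : Type} [Field K] [NumberField K]

theorem countable637 (K : Type) [Field K] [NumberField K] : Countable K := by
  let b := Module.finBasis ℚ K
  exact b.equivFun.toEquiv.injective.countable

theorem inTorus_one637 (t n : K) : InTorus t n (1 : A0.G K) :=
  ⟨1, 0, by rw [torMat_one637]; rfl⟩

theorem inTorus_mul637 {t n : K} {m m' : A0.G K} (h : InTorus t n m) (h' : InTorus t n m') :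
    InTorus t n (m * m') := by
  obtain ⟨a, b, hab⟩ := h
  obtain ⟨c, d, hcd⟩ := h'
  exact ⟨a * c - algebraMap K (A0.Adl K) n * (b * d),
    a * d + b * c + algebraMap K (A0.Adl K) t * (b * d),
    by rw [Units.val_mul, hab, hcd, torMat_mul637]⟩

theorem inTorus1_one637 (t n : K) : InTorus1 t n (1 : A0.G K) :=
  ⟨inTorus_one637 t n, map_one _⟩

theorem inTorus1_mul637 {t n : K} {m m' : A0.G K} (h : InTorus1 t n m) (h' : InTorus1 t n m') :
    InTorus1 t n (m * m') :=
  ⟨inTorus_mul637 h.1 h'.1, by rw [map_mul, h.2, h'.2, one_mul]⟩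

theorem val_inv_of_det_one637 {m : A0.G K} (h : Matrix.GeneralLinearGroup.det m = 1) :
    ((m⁻¹ : A0.G K) : Matrix (Fin 2) (Fin 2) (A0.Adl K))
      = !![(m : Matrix (Fin 2) (Fin 2) (A0.Adl K)) 1 1,
          -(m : Matrix (Fin 2) (Fin 2) (A0.Adl K)) 0 1;
          -(m : Matrix (Fin 2) (Fin 2) (A0.Adl K)) 1 0,
          (m : Matrix (Fin 2) (Fin 2) (A0.Adl K)) 0 0] := by
  have hdet : (m : Matrix (Fin 2) (Fin 2) (A0.Adl K)).det = 1 := by
    have := congrArg (fun u : (A0.Adl K)ˣ => (u : A0.Adl K)) h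
    simpa using this
  rw [Matrix.coe_units_inv, Matrix.inv_def, hdet, Ring.inverse_one, one_smul,
    Matrix.adjugate_fin_two]

theorem inTorus1_inv637 {t n : K} {m : A0.G K} (h : InTorus1 t n m) : InTorus1 t n m⁻¹ := by
  obtain ⟨⟨a, b, hab⟩, hdet⟩ := h
  refine ⟨⟨a + algebraMap K (A0.Adl K) t * b, -b, ?_⟩, by rw [map_inv, hdet, inv_one]⟩
  rw [val_inv_of_det_one637 hdet, hab]
  ext i j
  fin_cases i <;> fin_cases j <;> simp [torMat]

end TorGrp

/-! ## The domination of the orbital integrand -/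

section OrbDom

variable {K : Type} [Field K] [NumberField K]

/-- The translate `y_ξ⁻¹ DT` of the fundamental domain, `y_ξ ∈ T¹(K)` the element of first
column `ξ` (empty if there is no such element). -/
def domSet637 (D : KData K) (ξ : K × K) : Set (A0.G K) :=
  {m | ∃ y : A0.G K,
      (y : Matrix (Fin 2) (Fin 2) (A0.Adl K))
        = torMat (algebraMap K (A0.Adl K) D.t) (algebraMap K (A0.Adl K) D.n)
            (algebraMap K (A0.Adl K) ξ.1) (algebraMap K (A0.Adl K) ξ.2) ∧
      InTorus1 D.t D.n y ∧ y * m ∈ D.DT}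

theorem domSet_meas637 (D : KData K) (hM : D.IsMeasured) (ξ : K × K) :
    @MeasurableSet (A0.G K) (borel (A0.G K)) (domSet637 D ξ) := by
  letI : MeasurableSpace (A0.G K) := borel (A0.G K)
  haveI : BorelSpace (A0.G K) := ⟨rfl⟩
  by_cases h : ∃ y : A0.G K,
      (y : Matrix (Fin 2) (Fin 2) (A0.Adl K))
        = torMat (algebraMap K (A0.Adl K) D.t) (algebraMap K (A0.Adl K) D.n)
            (algebraMap K (A0.Adl K) ξ.1) (algebraMap K (A0.Adl K) ξ.2) ∧
      InTorus1 D.t D.n y
  · obtain ⟨y, hy, hy1⟩ := h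
    have hset : domSet637 D ξ = (fun m => y * m) ⁻¹' D.DT := by
      ext m
      constructor
      · rintro ⟨y', hy', _, hm⟩
        have hyy : y' = y := Units.ext (hy'.trans hy.symm)
        subst hyy
        exact hm
      · intro hm
        exact ⟨y, hy, hy1, hm⟩
    rw [hset]
    exact (continuous_const.mul continuous_id).measurable hM.dom_meas
  · have hset : domSet637 D ξ = ∅ := by
      ext m
      simp only [domSet637, Set.mem_ofPred_eq, Set.mem_empty_iff_false, iff_false]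
      rintro ⟨y, hy, hy1, _⟩
      exact h ⟨y, hy, hy1⟩
    rw [hset]
    exact MeasurableSet.empty

theorem domSet_measure_le637 (D : KData K) (hM : D.IsMeasured) (ξ : K × K) :
    D.μT (domSet637 D ξ) ≤ D.μT D.DT := by
  by_cases h : ∃ y : A0.G K,
      (y : Matrix (Fin 2) (Fin 2) (A0.Adl K))
        = torMat (algebraMap K (A0.Adl K) D.t) (algebraMap K (A0.Adl K) D.n)
            (algebraMap K (A0.Adl K) ξ.1) (algebraMap K (A0.Adl K) ξ.2) ∧
      InTorus1 D.t D.n y
  · obtain ⟨y, hy, hy1⟩ := h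
    have hsub : domSet637 D ξ ⊆ (fun m => y⁻¹ * m) '' D.DT := by
      rintro m ⟨y', hy', _, hm⟩
      have hyy : y' = y := Units.ext (hy'.trans hy.symm)
      subst hyy
      exact ⟨y' * m, hm, by simp⟩
    calc D.μT (domSet637 D ξ) ≤ D.μT ((fun m => y⁻¹ * m) '' D.DT) := measure_mono hsub
      _ = D.μT D.DT := hM.inv y⁻¹ (inTorus1_inv637 hy1) D.DT
  · have hset : domSet637 D ξ = ∅ := by
      ext m
      simp only [domSet637, Set.mem_ofPred_eq, Set.mem_empty_iff_false, iff_false]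
      rintro ⟨y, hy, hy1, _⟩
      exact h ⟨y, hy, hy1⟩
    rw [hset, measure_empty]
    exact bot_le

/-- **`orb_dom`** for any measured, regular family with the formula `tor1`. -/
theorem orb_dom637 (D : KData K) (hM : D.IsMeasured) (hR : D.IsRegular)
    (htor1 : ∀ m' : A0.G K, InTorus1 D.t D.n m' →
      ∀ (g m : A0.G K) (ξ : A0.Adl K × A0.Adl K), Adm D.t D.n g m →
        D.F g (m' * m) ξ = D.F g m (actV m'⁻¹ ξ))
    (C : Set (A0.G K × A0.G K)) (hC : IsCompact C) :
    ∃ h : A0.G K → ℝ,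
      (letI : MeasurableSpace (A0.G K) := borel (A0.G K)
       IntegrableOn h {m | InTorus1 D.t D.n m} D.μT) ∧
      ∀ p : A0.G K × A0.G K, p ∈ C → Adm D.t D.n p.1 p.2 → ∀ m : A0.G K, InTorus1 D.t D.n m →
        ‖D.F p.1 (m * p.2) (1, 0)‖ ≤ h m := by
  letI : MeasurableSpace (A0.G K) := borel (A0.G K)
  haveI : BorelSpace (A0.G K) := ⟨rfl⟩
  haveI : Countable K := countable637 K
  obtain ⟨Dbar, hDc, hDsub⟩ := hM.dom_compact
  set C' : Set (A0.G K × A0.G K) :=
    (fun q : A0.G K × (A0.G K × A0.G K) => (q.2.1, q.1 * q.2.2)) '' (Dbar ×ˢ C) with hC'def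
  have hC' : IsCompact C' := (hDc.prod hC).image (by fun_prop)
  obtain ⟨b, hbsum, hb⟩ := hR.loc_summable C' hC'
  have habs : Summable fun ξ => |b ξ| := hbsum.abs
  set hE : A0.G K → ℝ≥0∞ := fun m =>
    ∑' ξ : K × K, ENNReal.ofReal |b ξ| * (domSet637 D ξ).indicator 1 m with hEdef
  have hterm : ∀ ξ : K × K, Measurable fun m : A0.G K =>
      ENNReal.ofReal |b ξ| * (domSet637 D ξ).indicator (1 : A0.G K → ℝ≥0∞) m := fun ξ =>
    measurable_const.mul (measurable_one.indicator (domSet_meas637 D hM ξ))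
  have hEmeas : Measurable hE := Measurable.tsum hterm
  have htot : ∑' ξ : K × K, ENNReal.ofReal |b ξ| ≠ ∞ := by
    rw [← ENNReal.ofReal_tsum_of_nonneg (fun _ => abs_nonneg _) habs]
    exact ENNReal.ofReal_ne_top
  have hEle : ∀ m, hE m ≤ ∑' ξ : K × K, ENNReal.ofReal |b ξ| := by
    intro m
    refine ENNReal.tsum_le_tsum fun ξ => ?_
    by_cases hm : m ∈ domSet637 D ξ
    · simp [Set.indicator_of_mem hm]
    · simp [Set.indicator_of_notMem hm]
  have hEint : ∫⁻ m, hE m ∂D.μT < ∞ := by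
    rw [lintegral_tsum fun ξ => (hterm ξ).aemeasurable]
    calc ∑' ξ, ∫⁻ m, ENNReal.ofReal |b ξ| * (domSet637 D ξ).indicator 1 m ∂D.μT
        = ∑' ξ, ENNReal.ofReal |b ξ| * D.μT (domSet637 D ξ) := by
          congr 1
          ext ξ
          rw [lintegral_const_mul _ (measurable_one.indicator (domSet_meas637 D hM ξ)),
            lintegral_indicator_one (domSet_meas637 D hM ξ)]
      _ ≤ ∑' ξ, ENNReal.ofReal |b ξ| * D.μT D.DT :=
          ENNReal.tsum_le_tsum fun ξ =>
            mul_le_mul' le_rfl (domSet_measure_le637 D hM ξ)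
      _ = (∑' ξ, ENNReal.ofReal |b ξ|) * D.μT D.DT := ENNReal.tsum_mul_right
      _ < ∞ := ENNReal.mul_lt_top htot.lt_top
          ((measure_mono hDsub).trans_lt (hM.compact_lt Dbar hDc))
  refine ⟨fun m => (hE m).toReal, ?_, ?_⟩
  · refine Integrable.integrableOn ⟨hEmeas.ennreal_toReal.aestronglyMeasurable, ?_⟩
    rw [hasFiniteIntegral_iff_enorm]
    calc ∫⁻ m, ‖(hE m).toReal‖ₑ ∂D.μT ≤ ∫⁻ m, hE m ∂D.μT := lintegral_mono fun m => by
          rw [Real.enorm_eq_ofReal ENNReal.toReal_nonneg]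
          exact ENNReal.ofReal_toReal_le
      _ < ∞ := hEint
  · intro p hp hadm m hm
    obtain ⟨y, ⟨hyR, hy1, hyD⟩, -⟩ := hM.dom_fund m hm
    obtain ⟨a, b', hab⟩ := hyR
    have hadm' : Adm D.t D.n p.1 ((y * m) * p.2) :=
      ⟨inTorus_mul637 (inTorus_mul637 hy1.1 hm.1) hadm.1, by
        rw [hadm.2, map_mul, map_mul, hy1.2, hm.2, one_mul, one_mul]⟩
    have hmem : (p.1, (y * m) * p.2) ∈ C' := ⟨(y * m, p), ⟨hDsub hyD, hp⟩, rfl⟩
    have h1 : D.F p.1 (m * p.2) (1, 0) = D.F p.1 ((y * m) * p.2) (ratV (a, b')) := by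
      have h := htor1 y⁻¹ (inTorus1_inv637 hy1) p.1 ((y * m) * p.2) (1, 0) hadm'
      rw [inv_inv] at h
      have e1 : y⁻¹ * (y * m * p.2) = m * p.2 := by group
      rw [e1] at h
      rw [h]
      congr 1
      simp [actV, ratV, hab, torMat]
    rw [h1]
    refine (hb (a, b') (p.1, (y * m) * p.2) hmem hadm').trans ?_
    have hmS : m ∈ domSet637 D (a, b') := ⟨y, hab, hy1, hyD⟩
    have h3 : ENNReal.ofReal |b (a, b')| ≤ hE m := by
      calc ENNReal.ofReal |b (a, b')|
          = ENNReal.ofReal |b (a, b')| * (domSet637 D (a, b')).indicator 1 m := by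
            rw [Set.indicator_of_mem hmS]
            simp
        _ ≤ hE m := ENNReal.le_tsum (a, b')
    calc b (a, b') ≤ |b (a, b')| := le_abs_self _
      _ = (ENNReal.ofReal |b (a, b')|).toReal := (ENNReal.toReal_ofReal (abs_nonneg _)).symm
      _ ≤ (hE m).toReal := ENNReal.toReal_mono (ne_top_of_le_ne_top htot (hEle m)) h3

end OrbDom

end Fermat.Agent.LT.A2.H637

end
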